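/-
S56 / brick EC.6b (helper205): the field theory behind the Steinberg step of `EPSigma → ECExit`.

`F / ℚ` a finite subextension of `Qb = AlgebraicClosure ℚ`, `U ≤ GQ` a subgroup containing
`Gal(Qb/F)` (in the application `U` is the preimage of a `p`-subgroup of `GQ ⧸ Gal(Qb/F)`),
`K := IntermediateField.fixedField U`.

* `fixedField_le` : `K ≤ F`;
* `fixingSubgroup_fixedField_of_le` : `K.fixingSubgroup = U` (`U` is open, hence closed);
* `finiteDimensional_fixedField`, `numberField_fixedField`, `isUnramifiedOutside_fixedField`;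
* `cycloField_le_fixedField` : `ℚ(μ_p) ≤ K` when `ℚ(μ_p) ≤ F` and every element of `U` has a
  `p`-power in `Gal(Qb/F)` (the mod `p` cyclotomic character has values of order prime to `p`).
-/
import Mathlib
import Fermat.Agent.S55.Glue.DualTwist
import Fermat.Agent.CFT.LocalBr.MuEmb

set_option autoImplicit false

open ExtCitation

namespace Fermat.Agent.S56.EC.ExitB.Field

open Fermat.Agent.S55.Glue

local notation "Qb" => AlgebraicClosure ℚ
local notation "GQ" => (AlgebraicClosure ℚ ≃ₐ[ℚ] AlgebraicClosure ℚ)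

local instance isAlgebraicQbar_xb : Algebra.IsAlgebraic ℚ (AlgebraicClosure ℚ) :=
  AlgebraicClosure.isAlgebraic ℚ
local instance isAlgClosureQbar_xb : IsAlgClosure ℚ (AlgebraicClosure ℚ) :=
  ⟨inferInstance, inferInstance⟩
local instance normalQbar_xb : Normal ℚ (AlgebraicClosure ℚ) :=
  IsAlgClosure.normal ℚ (AlgebraicClosure ℚ)
local instance isGaloisQbar_xb : IsGalois ℚ (AlgebraicClosure ℚ) :=
  IsAlgClosure.isGalois ℚ (AlgebraicClosure ℚ)

variable (F : IntermediateField ℚ Qb) (U : Subgroup GQ)

/-- The fixed field of a subgroup containing `Gal(Qb/F)` is contained in `F`. -/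
theorem fixedField_le (hFU : F.fixingSubgroup ≤ U) : IntermediateField.fixedField U ≤ F := by
  have h2 := IntermediateField.fixedField_antitone hFU
  rwa [InfiniteGalois.fixedField_fixingSubgroup F] at h2

/-- A subgroup containing `Gal(Qb/F)`, `F` finite over `ℚ`, is closed. -/
theorem isClosed_of_le [FiniteDimensional ℚ F] (hFU : F.fixingSubgroup ≤ U) :
    IsClosed (U : Set GQ) :=
  Subgroup.isClosed_of_isOpen _ (Subgroup.isOpen_mono hFU F.fixingSubgroup_isOpen)

/-- **Galois correspondence** for a subgroup containing `Gal(Qb/F)`, `F` finite over `ℚ`. -/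
theorem fixingSubgroup_fixedField_of_le [FiniteDimensional ℚ F] (hFU : F.fixingSubgroup ≤ U) :
    (IntermediateField.fixedField U).fixingSubgroup = U :=
  InfiniteGalois.fixingSubgroup_fixedField (⟨U, isClosed_of_le F U hFU⟩ : ClosedSubgroup GQ)

theorem finiteDimensional_fixedField [FiniteDimensional ℚ F] (hFU : F.fixingSubgroup ≤ U) :
    FiniteDimensional ℚ ↥(IntermediateField.fixedField U) :=
  FiniteDimensional.of_injective
    (IntermediateField.inclusion (fixedField_le F U hFU)).toLinearMap
    (IntermediateField.inclusion_injective (fixedField_le F U hFU))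

theorem numberField_fixedField [FiniteDimensional ℚ F] (hFU : F.fixingSubgroup ≤ U) :
    NumberField ↥(IntermediateField.fixedField U) :=
  haveI := finiteDimensional_fixedField F U hFU
  ⟨⟩

theorem isUnramifiedOutside_fixedField {S : Finset Nat.Primes} (hF : F.IsUnramifiedOutside S)
    (hFU : F.fixingSubgroup ≤ U) : (IntermediateField.fixedField U).IsUnramifiedOutside S :=
  hF.of_le (fixedField_le F U hFU)

/-- An element of `GQ` with a `p`-power in `Gal(Qb/ℚ(μ_p))` has trivial mod `p` cyclotomic
character. -/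
theorem cycloChar_eq_one_of_pow_mem (p : ℕ) [Fact p.Prime] {u : GQ} {k : ℕ}
    (hu : u ^ (p ^ k) ∈ (cycloField p).fixingSubgroup) : cycloChar p u = 1 := by
  have hp : p.Prime := Fact.out
  have h1 : (cycloChar p u) ^ (p ^ k) = 1 := by
    rw [← map_pow]
    exact cycloChar_eq_one_of_mem_fixingSubgroup p hu
  have h2 : (cycloChar p u) ^ (p - 1) = 1 := by
    have h := ZMod.pow_card_sub_one_eq_one (p := p) (a := ((cycloChar p u : (ZMod p)ˣ) : ZMod p))
      (Units.ne_zero _)
    apply Units.ext
    rw [Units.val_pow_eq_pow_val, Units.val_one]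
    exact h
  have h3 : orderOf (cycloChar p u) ∣ p ^ k := orderOf_dvd_of_pow_eq_one h1
  have h4 : orderOf (cycloChar p u) ∣ p - 1 := orderOf_dvd_of_pow_eq_one h2
  have h5 : Nat.Coprime (p ^ k) (p - 1) := by
    have h7 : Nat.Coprime p (p - 1) := by
      rw [Nat.Prime.coprime_iff_not_dvd hp]
      intro hdvd
      have h8 := Nat.le_of_dvd (Nat.sub_pos_of_lt hp.one_lt) hdvd
      have h9 := hp.one_lt
      omega
    exact Nat.Coprime.pow_left k h7
  have h6 : orderOf (cycloChar p u) = 1 := Nat.eq_one_of_dvd_coprimes h5 h3 h4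
  exact orderOf_eq_one_iff.1 h6

/-- `ℚ(μ_p) ≤ Qb^U` when `ℚ(μ_p) ≤ F` and every element of `U` has a `p`-power in
`Gal(Qb/F)`. -/
theorem cycloField_le_fixedField (p : ℕ) [Fact p.Prime] (hC : cycloField p ≤ F)
    (hU : ∀ u ∈ U, ∃ k : ℕ, u ^ (p ^ k) ∈ F.fixingSubgroup) :
    cycloField p ≤ IntermediateField.fixedField U := by
  have hp : p.Prime := Fact.out
  have : NeZero p := ⟨hp.ne_zero⟩
  have : Fact (1 < p) := ⟨hp.one_lt⟩
  unfold cycloField
  rw [IntermediateField.adjoin_le_iff]
  intro x hx
  rw [SetLike.mem_coe, IntermediateField.mem_fixedField_iff]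
  intro u hu
  obtain ⟨k, hk⟩ := hU u hu
  have h1 : cycloChar p u = 1 :=
    cycloChar_eq_one_of_pow_mem p (IntermediateField.fixingSubgroup_antitone hC hk)
  have h2 := Fermat.Agent.CFT.LocalBr.cycloChar_spec p u (x := x) hx
  rw [h1, Units.val_one, ZMod.val_one, pow_one] at h2
  exact h2

end Fermat.Agent.S56.EC.ExitB.Field
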