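/-
S56 / brick EC.6b (helper205): the model dictionary for the (EP) hypotheses of the Steinberg
reduction.

`π : 𝔊 →* G` a surjective homomorphism (in the application `GQ → GQ ⧸ Gal(Qb/F)`), `S` a
transitive `G`-set with base point `s₀`, `U ≤ 𝔊` the preimage of the stabiliser of `s₀`.

* `toCoind`, `ofCoind` : the mutually inverse linear maps between the functions `S → k` and
  `coindTriv U k = M0 k U` (left-`U`-invariant functions on `𝔊`),
  `(toCoind φ) x = φ ((π x)⁻¹ • s₀)`;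
* `toCoind_funRep` : `toCoind` intertwines `SteinbergInd.funRep k G S (π s)` with the action of
  `s` on `M0 k U`;
* `toCoind_funRepΓ` : if a group `Γ` acts on `S` commuting with `G`, then `funRep k Γ S γ`
  corresponds to the left translation `CoindAction.lt g` for any `g` with
  `π g • s₀ = γ⁻¹ • s₀` (such a `g` normalises `U`: `mem_nrm_of_smul_eq`);
* `exists_family` : every retract of `Fin n → (S → 𝔽_p)` whose projector is
  `SteinbergInd.opOf (funRep 𝔽_p Γ S) e` gives, after inflation to `𝔊`, a family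
  `a j : M0 U ⟶ X`, `b j : X ⟶ M0 U` with `∑ a j ∘ b j = 1` and every `b i ∘ a j` a finite
  combination of left translations - the shape of the hypothesis of `EC.EPSigma`.
-/
import Fermat.Agent.S56.EC.CoindAction
import Fermat.Agent.S56.EC.SteinbergInd.Defs

set_option autoImplicit false

open CategoryTheory

namespace Fermat.Agent.S56.EC.ExitB.Model

open Fermat.Agent.S55.Abs Fermat.Agent.S56.EC.CoindAction Fermat.Agent.S56.EC.SteinbergInd

/-! ### Functions on a transitive `G`-set and the coinduced module -/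

section Dict

variable {k : Type} [Field k] {𝔊 G : Type} [Group 𝔊] [Group G] (π : 𝔊 →* G)
  {S : Type} [MulAction G S] (s₀ : S) (U : Subgroup 𝔊)

/-- `φ ↦ (x ↦ φ ((π x)⁻¹ • s₀))`. -/
noncomputable def toCoind (hU : ∀ x : 𝔊, x ∈ U → π x • s₀ = s₀) :
    (S → k) →ₗ[k] coindTriv (k := k) U k where
  toFun φ := ⟨fun x => φ ((π x)⁻¹ • s₀), fun u x => by
    show φ ((π ((u : 𝔊) * x))⁻¹ • s₀) = φ ((π x)⁻¹ • s₀)
    have h1 : (π (u : 𝔊))⁻¹ • s₀ = s₀ := inv_smul_eq_iff.2 (hU u u.2).symm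
    rw [map_mul, mul_inv_rev, mul_smul, h1]⟩
  map_add' _ _ := rfl
  map_smul' _ _ := rfl

theorem toCoind_apply (hU : ∀ x : 𝔊, x ∈ U → π x • s₀ = s₀) (φ : S → k) (x : 𝔊) :
    (toCoind π s₀ U hU φ).1 x = φ ((π x)⁻¹ • s₀) := rfl

/-- `toCoind` is equivariant: `funRep (π s)` corresponds to the action of `s`. -/
theorem toCoind_funRep (hU : ∀ x : 𝔊, x ∈ U → π x • s₀ = s₀) (s : 𝔊) (φ : S → k) :
    toCoind π s₀ U hU (funRep k G S (π s) φ) =
      (coindTriv (k := k) U k).ρ s (toCoind π s₀ U hU φ) := by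
  apply Subtype.ext
  funext x
  show φ ((π s)⁻¹ • (π x)⁻¹ • s₀) = φ ((π (x * s))⁻¹ • s₀)
  rw [map_mul, mul_inv_rev, mul_smul]

section Gamma

variable {Γ : Type} [Group Γ] [MulAction Γ S] [SMulCommClass G Γ S]

/-- An element `g` with `π g • s₀ = γ⁻¹ • s₀` normalises the preimage of the stabiliser. -/
theorem mem_nrm_of_smul_eq (hU : ∀ x : 𝔊, x ∈ U ↔ π x • s₀ = s₀) {g : 𝔊} {γ : Γ}
    (hg : π g • s₀ = γ⁻¹ • s₀) : g ∈ Nrm U := by
  have h1 : (π g)⁻¹ • s₀ = γ • s₀ := by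
    rw [inv_smul_eq_iff, smul_comm (π g) γ s₀, hg, smul_inv_smul]
  rw [Subgroup.mem_normalizer_iff]
  intro u
  have key : π (g * u * g⁻¹) • s₀ = γ • π g • π u • s₀ := by
    rw [map_mul, map_mul, map_inv, mul_smul, mul_smul, h1, smul_comm (π u) γ s₀,
      smul_comm (π g) γ (π u • s₀)]
  rw [hU, hU, key]
  constructor
  · intro h
    rw [h, hg, smul_inv_smul]
  · intro h
    have h2 : π g • π u • s₀ = π g • s₀ := by
      rw [hg]
      exact eq_inv_smul_iff.2 h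
    exact MulAction.injective (π g) h2

/-- `funRep k Γ S γ` corresponds to the left translation by any `g` with
`π g • s₀ = γ⁻¹ • s₀`. -/
theorem toCoind_funRepΓ (hU : ∀ x : 𝔊, x ∈ U → π x • s₀ = s₀) (g : ↥(Nrm U)) (γ : Γ)
    (hg : π (g : 𝔊) • s₀ = γ⁻¹ • s₀) (φ : S → k) :
    toCoind π s₀ U hU (funRep k Γ S γ φ) = (lt U k g).hom (toCoind π s₀ U hU φ) := by
  apply Subtype.ext
  funext x
  show φ (γ⁻¹ • (π x)⁻¹ • s₀) = φ ((π ((g : 𝔊)⁻¹ * x))⁻¹ • s₀)
  rw [map_mul, map_inv, mul_inv_rev, inv_inv, mul_smul, hg, smul_comm (π x)⁻¹ γ⁻¹ s₀]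

end Gamma

variable (hπ : Function.Surjective π) (htrans : ∀ s : S, ∃ g : G, g • s₀ = s)

include hπ htrans in
theorem exists_pt (s : S) : ∃ x : 𝔊, π x • s₀ = s := by
  obtain ⟨g, hg⟩ := htrans s
  obtain ⟨x, rfl⟩ := hπ g
  exact ⟨x, hg⟩

/-- A chosen `x : 𝔊` with `π x • s₀ = s`. -/
noncomputable def pt (s : S) : 𝔊 := Classical.choose (exists_pt π s₀ hπ htrans s)

theorem pt_spec (s : S) : π (pt π s₀ hπ htrans s) • s₀ = s :=
  Classical.choose_spec (exists_pt π s₀ hπ htrans s)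

/-- The inverse of `toCoind`: `f ↦ (s ↦ f (x_s⁻¹))`, `π x_s • s₀ = s`. -/
noncomputable def ofCoind : coindTriv (k := k) U k →ₗ[k] (S → k) where
  toFun f := fun s => f.1 (pt π s₀ hπ htrans s)⁻¹
  map_add' _ _ := rfl
  map_smul' _ _ := rfl

theorem ofCoind_toCoind (hU : ∀ x : 𝔊, x ∈ U → π x • s₀ = s₀) (φ : S → k) :
    ofCoind π s₀ U hπ htrans (toCoind π s₀ U hU φ) = φ := by
  funext s
  show φ ((π (pt π s₀ hπ htrans s)⁻¹)⁻¹ • s₀) = φ s
  rw [map_inv, inv_inv, pt_spec]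

theorem toCoind_ofCoind (hU : ∀ x : 𝔊, x ∈ U ↔ π x • s₀ = s₀) (f : coindTriv (k := k) U k) :
    toCoind π s₀ U (fun x hx => (hU x).1 hx) (ofCoind π s₀ U hπ htrans f) = f := by
  apply Subtype.ext
  funext y
  show f.1 (pt π s₀ hπ htrans ((π y)⁻¹ • s₀))⁻¹ = f.1 y
  have hu : ∀ x : 𝔊, π x • s₀ = (π y)⁻¹ • s₀ → x⁻¹ * y⁻¹ ∈ U := by
    intro x hx
    rw [hU, map_mul, map_inv, map_inv, mul_smul, ← hx, inv_smul_smul]
  have h := coindTriv_apply_mul f (hu _ (pt_spec π s₀ hπ htrans ((π y)⁻¹ • s₀))) y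
  rw [inv_mul_cancel_right] at h
  exact h

/-- `ofCoind` is equivariant. -/
theorem ofCoind_ρ (hU : ∀ x : 𝔊, x ∈ U ↔ π x • s₀ = s₀) (s : 𝔊) (f : coindTriv (k := k) U k) :
    ofCoind π s₀ U hπ htrans ((coindTriv (k := k) U k).ρ s f) =
      funRep k G S (π s) (ofCoind π s₀ U hπ htrans f) := by
  have h := toCoind_funRep π s₀ U (fun x hx => (hU x).1 hx) s (ofCoind π s₀ U hπ htrans f)
  rw [toCoind_ofCoind π s₀ U hπ htrans hU] at h
  rw [← h, ofCoind_toCoind]

end Dict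

/-! ### The retract family -/

section Family

variable {p : ℕ} [Fact p.Prime] {𝔊 G : Type} [Group 𝔊] [Group G] (π : 𝔊 →* G)
  (hπ : Function.Surjective π) {S : Type} [MulAction G S] (s₀ : S)
  (htrans : ∀ s : S, ∃ g : G, g • s₀ = s) (U : Subgroup 𝔊)
  (hU : ∀ x : 𝔊, x ∈ U ↔ π x • s₀ = s₀)
  {Γ : Type} [Group Γ] [MulAction Γ S] [SMulCommClass G Γ S]

include hπ htrans hU in
/-- **The retract family.**  A retract `X` of `Fin n → (S → 𝔽_p)` (diagonal action of `G`) whose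
projector is `opOf (funRep 𝔽_p Γ S) e` becomes, after inflation along `π`, a retract of
`M0(U)ⁿ` presented by a family `a`, `b` all of whose matrix entries `b i ∘ a j` are finite
combinations of the left translations `lt g`, `g` in the normaliser of `U`. -/
theorem exists_family {n : ℕ} (e : Matrix (Fin n) (Fin n) (MonoidAlgebra (ZMod p) Γ))
    {X : Type} [AddCommGroup X] [Module (ZMod p) X] (ρX : Representation (ZMod p) G X)
    (i : X →ₗ[ZMod p] (Fin n → (S → ZMod p))) (r : (Fin n → (S → ZMod p)) →ₗ[ZMod p] X)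
    (hi : ∀ g x l, i (ρX g x) l = funRep (ZMod p) G S g (i x l))
    (hr : ∀ g v, r (fun l => funRep (ZMod p) G S g (v l)) = ρX g (r v))
    (hri : ∀ x, r (i x) = x) (hir : ∀ v, i (r v) = opOf (funRep (ZMod p) Γ S) e v) :
    ∃ (a : Fin n → (M0 (ZMod p) U ⟶ (Rep.of (ρX.comp π) : Rep.{0} (ZMod p) 𝔊)))
      (b : Fin n → ((Rep.of (ρX.comp π) : Rep.{0} (ZMod p) 𝔊) ⟶ M0 (ZMod p) U)),
      (∀ x, ∑ j, (a j).hom ((b j).hom x) = x) ∧
      ∀ i' j, ∃ (s : Finset ↥(Nrm U)) (c : ↥(Nrm U) → ZMod p),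
        ∀ f, (b i').hom ((a j).hom f) = ∑ g ∈ s, c g • (lt U (ZMod p) g).hom f := by
  classical
  have hU1 : ∀ x : 𝔊, x ∈ U → π x • s₀ = s₀ := fun x hx => (hU x).1 hx
  have hOT : ∀ φ : S → ZMod p, ofCoind π s₀ U hπ htrans (toCoind π s₀ U hU1 φ) = φ :=
    ofCoind_toCoind π s₀ U hπ htrans hU1
  have hTO : ∀ f : coindTriv (k := ZMod p) U (ZMod p),
      toCoind π s₀ U hU1 (ofCoind π s₀ U hπ htrans f) = f :=
    toCoind_ofCoind π s₀ U hπ htrans hU
  let a : Fin n → (M0 (ZMod p) U ⟶ (Rep.of (ρX.comp π) : Rep.{0} (ZMod p) 𝔊)) := fun j =>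
    Rep.ofHom (LinearMap.intertwiningMap_of_isIntertwiningMap (M0 (ZMod p) U).ρ (ρX.comp π)
      (r ∘ₗ LinearMap.single (ZMod p) (fun _ : Fin n => S → ZMod p) j ∘ₗ
        ofCoind π s₀ U hπ htrans)
      (fun s f => by
        show r (Pi.single j (ofCoind π s₀ U hπ htrans ((M0 (ZMod p) U).ρ s f))) =
          ρX (π s) (r (Pi.single j (ofCoind π s₀ U hπ htrans f)))
        rw [ofCoind_ρ π s₀ U hπ htrans hU, ← hr]
        congr 1
        funext l
        by_cases hl : l = j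
        · subst hl
          simp
        · simp [Pi.single_eq_of_ne hl]))
  let b : Fin n → ((Rep.of (ρX.comp π) : Rep.{0} (ZMod p) 𝔊) ⟶ M0 (ZMod p) U) := fun j =>
    Rep.ofHom (LinearMap.intertwiningMap_of_isIntertwiningMap (ρX.comp π) (M0 (ZMod p) U).ρ
      (toCoind π s₀ U hU1 ∘ₗ LinearMap.proj j ∘ₗ i)
      (fun s x => by
        show toCoind π s₀ U hU1 (i (ρX (π s) x) j) =
          (M0 (ZMod p) U).ρ s (toCoind π s₀ U hU1 (i x j))
        rw [hi, toCoind_funRep]))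
  have ha : ∀ (j : Fin n) (f : M0 (ZMod p) U),
      (a j).hom f = r (Pi.single j (ofCoind π s₀ U hπ htrans f)) := fun _ _ => rfl
  have hb : ∀ (j : Fin n) (x : X), (b j).hom x = toCoind π s₀ U hU1 (i x j) := fun _ _ => rfl
  refine ⟨a, b, ?_, ?_⟩
  · intro x
    have h1 : ∀ j : Fin n, (a j).hom ((b j).hom x) = r (Pi.single j (i x j)) := by
      intro j
      rw [ha, hb, hOT]
    simp only [h1]
    rw [← map_sum, Finset.univ_sum_single (i x), hri]
  · intro i' j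
    have hsec : ∀ γ : Γ, ∃ g : ↥(Nrm U), π (g : 𝔊) • s₀ = γ⁻¹ • s₀ := by
      intro γ
      obtain ⟨x, hx⟩ := exists_pt π s₀ hπ htrans (γ⁻¹ • s₀)
      exact ⟨⟨x, mem_nrm_of_smul_eq π s₀ U hU hx⟩, hx⟩
    choose σ hσ using hsec
    refine ⟨(e i' j).coeff.support.image σ,
      fun g => ∑ γ ∈ (e i' j).coeff.support.filter (fun γ => σ γ = g), (e i' j).coeff γ, fun f => ?_⟩
    rw [ha, hb, hir, opOf_apply]
    rw [Finset.sum_eq_single j
      (fun j' _ hj' => by rw [Pi.single_eq_of_ne hj', map_zero])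
      (fun h => absurd (Finset.mem_univ j) h), Pi.single_eq_same]
    have hexp : (funRep (ZMod p) Γ S).asAlgebraHom (e i' j) (ofCoind π s₀ U hπ htrans f) =
        ∑ γ ∈ (e i' j).coeff.support,
          (e i' j).coeff γ • funRep (ZMod p) Γ S γ (ofCoind π s₀ U hπ htrans f) := by
      rw [Representation.asAlgebraHom_def, MonoidAlgebra.lift_apply]
      simp [Finsupp.sum, LinearMap.sum_apply]
    rw [hexp, map_sum]
    have hγ : ∀ γ : Γ, toCoind π s₀ U hU1
        ((e i' j).coeff γ • funRep (ZMod p) Γ S γ (ofCoind π s₀ U hπ htrans f)) =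
        (e i' j).coeff γ • (lt U (ZMod p) (σ γ)).hom f := by
      intro γ
      rw [map_smul, toCoind_funRepΓ π s₀ U hU1 (σ γ) γ (hσ γ), hTO]
    simp only [hγ]
    symm
    apply Finset.sum_image'
    intro γ _
    rw [Finset.sum_smul]
    refine Finset.sum_congr rfl fun γ' hγ' => ?_
    rw [(Finset.mem_filter.1 hγ').2]

end Family

end Fermat.Agent.S56.EC.ExitB.Model
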